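import Mathlib
import Fermat.Agent.MU.F3.I2.FormChar

section MergeWrap_S48_W_A_Eis -- from S48/W/A/Eis.lean

set_option autoImplicit false

noncomputable section

namespace Fermat.Agent.S48WAEis

open UpperHalfPlane Filter Topology CongruenceSubgroup EisensteinSeries Matrix ModularForm
open Fermat.Agent.F3I2
open scoped MatrixGroups Manifold ModularForm

variable (G : Subgroup SL(2, ℤ))

/-- The weight of the bottom row `v`: `χ(γ)⁻¹ / 2` if `v` is the bottom row of `γ ∈ G`,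
and `0` if `v` is not a bottom row. -/
def eisWeightG (χ : ↥G →* ℂˣ) (v : Fin 2 → ℤ) : ℂ :=
  open Classical in
  if h : ∃ γ : ↥G, (γ : SL(2, ℤ)) 1 = v then (((χ h.choose)⁻¹ : ℂˣ) : ℂ) / 2 else 0

/-- The Eisenstein series of weight `k` and character `χ` on `G`. -/
def eisG (k : ℤ) (χ : ↥G →* ℂˣ) (z : ℍ) : ℂ :=
  ∑' v : Fin 2 → ℤ, eisWeightG G χ v * eisSummand k v z

theorem eisG_eq_wEis (k : ℤ) (χ : ↥G →* ℂˣ) :
    eisG G k χ = wEis k (eisWeightG G χ) := rfl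

variable {G} {k : ℤ}

theorem norm_eisWeightG_le (χ : ↥G →* ℂˣ)
    (hχ : ∀ γ, ‖((χ γ : ℂˣ) : ℂ)‖ = 1) (v : Fin 2 → ℤ) : ‖eisWeightG G χ v‖ ≤ 1 := by
  unfold eisWeightG
  split_ifs with h
  · rw [norm_div, Units.val_inv_eq_inv_val, norm_inv, hχ]
    norm_num
  · simp

theorem sl2_mul_inv_row (γ δ : SL(2, ℤ)) :
    (γ * δ⁻¹) 1 0 = γ 1 0 * δ 1 1 - γ 1 1 * δ 1 0 := by
  rw [Matrix.SpecialLinearGroup.SL2_inv_expl]
  show ((γ : Matrix (Fin 2) (Fin 2) ℤ) *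
    (Matrix.of ![![δ.1 1 1, -δ.1 0 1], ![-δ.1 1 0, δ.1 0 0]] : Matrix (Fin 2) (Fin 2) ℤ)) 1 0 = _
  rw [Matrix.mul_apply, Fin.sum_univ_two]
  simp
  ring

/-- Two elements of `G` with the same bottom row have the same value under `χ`. -/
theorem chi_eq_of_row_eq (χ : ↥G →* ℂˣ)
    (hinf : ∀ γ : ↥G, (γ : SL(2, ℤ)) 1 0 = 0 → χ γ = 1) (γ δ : ↥G)
    (h : (γ : SL(2, ℤ)) 1 = (δ : SL(2, ℤ)) 1) : χ γ = χ δ := by
  have h1 : χ (γ * δ⁻¹) = 1 := by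
    apply hinf
    have e : ((γ * δ⁻¹ : ↥G) : SL(2, ℤ)) = (γ : SL(2, ℤ)) * (δ : SL(2, ℤ))⁻¹ := by
      simp
    rw [e, sl2_mul_inv_row]
    have h0 := congrFun h 0
    have h1 := congrFun h 1
    rw [h0, h1]
    ring
  rw [map_mul, map_inv, mul_inv_eq_one] at h1
  exact h1

theorem eisWeightG_row (χ : ↥G →* ℂˣ)
    (hinf : ∀ γ : ↥G, (γ : SL(2, ℤ)) 1 0 = 0 → χ γ = 1) (δ : ↥G) :
    eisWeightG G χ ((δ : SL(2, ℤ)) 1) = (((χ δ)⁻¹ : ℂˣ) : ℂ) / 2 := by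
  have h : ∃ γ : ↥G, (γ : SL(2, ℤ)) 1 = (δ : SL(2, ℤ)) 1 := ⟨δ, rfl⟩
  unfold eisWeightG
  rw [dif_pos h, chi_eq_of_row_eq χ hinf _ δ h.choose_spec]

theorem eisWeightG_of_not_row (χ : ↥G →* ℂˣ) {v : Fin 2 → ℤ}
    (h : ¬ ∃ γ : ↥G, (γ : SL(2, ℤ)) 1 = v) : eisWeightG G χ v = 0 := by
  unfold eisWeightG
  rw [dif_neg h]

theorem row_mul_eq (γ δ : SL(2, ℤ)) :
    (γ * δ) 1 = (γ 1) ᵥ* (↑δ : Matrix (Fin 2) (Fin 2) ℤ) := by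
  funext j
  simp [Matrix.SpecialLinearGroup.coe_mul, Matrix.mul_apply, Matrix.vecMul, dotProduct]

theorem eisWeightG_vecMul (χ : ↥G →* ℂˣ)
    (hinf : ∀ γ : ↥G, (γ : SL(2, ℤ)) 1 0 = 0 → χ γ = 1) (γ : ↥G)
    (v : Fin 2 → ℤ) :
    eisWeightG G χ (v ᵥ* (↑((γ : SL(2, ℤ))⁻¹) : Matrix (Fin 2) (Fin 2) ℤ))
      = ((χ γ : ℂˣ) : ℂ) * eisWeightG G χ v := by
  by_cases h : ∃ δ : ↥G, (δ : SL(2, ℤ)) 1 = v
  · obtain ⟨δ, rfl⟩ := h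
    have e : ((δ : SL(2, ℤ)) 1) ᵥ* (↑((γ : SL(2, ℤ))⁻¹) : Matrix (Fin 2) (Fin 2) ℤ)
        = ((δ * γ⁻¹ : ↥G) : SL(2, ℤ)) 1 := by
      rw [← row_mul_eq]
      simp
    rw [e, eisWeightG_row χ hinf, eisWeightG_row χ hinf, map_mul, map_inv]
    simp only [_root_.mul_inv_rev, inv_inv, Units.val_mul]
    ring
  · have h' : ¬ ∃ δ : ↥G,
        (δ : SL(2, ℤ)) 1 = v ᵥ* (↑((γ : SL(2, ℤ))⁻¹) : Matrix (Fin 2) (Fin 2) ℤ) := by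
      rintro ⟨δ, hδ⟩
      apply h
      refine ⟨δ * γ, ?_⟩
      have : ((δ * γ : ↥G) : SL(2, ℤ)) 1
          = ((δ : SL(2, ℤ)) 1) ᵥ* (↑(γ : SL(2, ℤ)) : Matrix (Fin 2) (Fin 2) ℤ) := by
        rw [← row_mul_eq]
        simp
      rw [this, hδ, eis_vecMul_inv_vecMul]
    rw [eisWeightG_of_not_row χ h, eisWeightG_of_not_row χ h', mul_zero]

/-! ### The four properties -/

theorem eisG_mdifferentiable (hk : 3 ≤ k) (χ : ↥G →* ℂˣ)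
    (hχ : ∀ γ, ‖((χ γ : ℂˣ) : ℂ)‖ = 1) : MDiff (eisG G k χ) :=
  wEis_mdifferentiable hk (norm_eisWeightG_le χ hχ)

theorem eisG_slash (χ : ↥G →* ℂˣ)
    (hinf : ∀ γ : ↥G, (γ : SL(2, ℤ)) 1 0 = 0 → χ γ = 1) (γ : ↥G) :
    eisG G k χ ∣[k] (γ : SL(2, ℤ)) = ((χ γ : ℂˣ) : ℂ) • eisG G k χ := by
  rw [eisG_eq_wEis, wEis_slash]
  funext z
  simp only [wEis, Pi.smul_apply, smul_eq_mul, eisWeightG_vecMul χ hinf γ, mul_assoc]
  rw [tsum_mul_left]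

theorem eisG_isBoundedAtImInfty_slash (hk : 3 ≤ k) (χ : ↥G →* ℂˣ)
    (hχ : ∀ γ, ‖((χ γ : ℂˣ) : ℂ)‖ = 1) (g : SL(2, ℤ)) :
    IsBoundedAtImInfty (eisG G k χ ∣[k] g) := by
  rw [eisG_eq_wEis, wEis_slash]
  exact wEis_isBoundedAtImInfty hk (fun v => norm_eisWeightG_le χ hχ _)

/-! ### The limit at `i∞` -/

theorem sl2_row_one_eq_of_zero (γ : SL(2, ℤ)) (h : γ 1 0 = 0) : γ 1 1 = 1 ∨ γ 1 1 = -1 := by
  have hdet := Matrix.SpecialLinearGroup.det_coe γ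
  rw [Matrix.det_fin_two] at hdet
  have h' : (γ : Matrix (Fin 2) (Fin 2) ℤ) 1 0 = 0 := h
  rw [h', mul_zero, sub_zero] at hdet
  exact Int.isUnit_iff.mp (IsUnit.of_mul_eq_one _ (by rw [mul_comm]; exact hdet))

theorem eisWeightG_zero_one (χ : ↥G →* ℂˣ)
    (hinf : ∀ γ : ↥G, (γ : SL(2, ℤ)) 1 0 = 0 → χ γ = 1) :
    eisWeightG G χ ![0, 1] = 1 / 2 := by
  have e : ((1 : ↥G) : SL(2, ℤ)) 1 = ![0, 1] := by
    funext i
    fin_cases i <;> simp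
  rw [← e, eisWeightG_row χ hinf, map_one]
  simp

/-- the weight of the row `(0, -1)`: real, `0` or `1/2`. -/
theorem eisWeightG_zero_neg_one (χ : ↥G →* ℂˣ)
    (hinf : ∀ γ : ↥G, (γ : SL(2, ℤ)) 1 0 = 0 → χ γ = 1) :
    eisWeightG G χ ![0, -1] = 0 ∨ eisWeightG G χ ![0, -1] = 1 / 2 := by
  by_cases h : ∃ γ : ↥G, (γ : SL(2, ℤ)) 1 = ![0, -1]
  · obtain ⟨γ, hγ⟩ := h
    right
    have h0 : (γ : SL(2, ℤ)) 1 0 = 0 := by
      have := congrFun hγ 0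
      simpa using this
    rw [← hγ, eisWeightG_row χ hinf, hinf γ h0]
    simp
  · left
    exact eisWeightG_of_not_row χ h

theorem eisWeightG_eq_zero_of (χ : ↥G →* ℂˣ) {v : Fin 2 → ℤ} (h0 : v 0 = 0)
    (h1 : v ≠ ![0, 1]) (h2 : v ≠ ![0, -1]) : eisWeightG G χ v = 0 := by
  apply eisWeightG_of_not_row
  rintro ⟨γ, rfl⟩
  rcases sl2_row_one_eq_of_zero (γ : SL(2, ℤ)) h0 with h | h
  · apply h1
    funext i
    fin_cases i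
    · exact h0
    · exact h
  · apply h2
    funext i
    fin_cases i
    · exact h0
    · exact h

/-- the limit of `E_{k,χ}` at `i∞`. -/
def eisLimG (G : Subgroup SL(2, ℤ)) (χ : ↥G →* ℂˣ) : ℂ := 1 / 2 + eisWeightG G χ ![0, -1]

theorem eisLimG_ne_zero (χ : ↥G →* ℂˣ)
    (hinf : ∀ γ : ↥G, (γ : SL(2, ℤ)) 1 0 = 0 → χ γ = 1) : eisLimG G χ ≠ 0 := by
  unfold eisLimG
  rcases eisWeightG_zero_neg_one χ hinf with h | h <;> rw [h] <;> norm_num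

theorem eisG_limit_eq (hk2 : Even k) (χ : ↥G →* ℂˣ)
    (hinf : ∀ γ : ↥G, (γ : SL(2, ℤ)) 1 0 = 0 → χ γ = 1) :
    (∑' v : Fin 2 → ℤ, if v 0 = 0 then eisWeightG G χ v * ((v 1 : ℤ) : ℂ) ^ (-k) else 0)
      = eisLimG G χ := by
  classical
  have hne : (![0, 1] : Fin 2 → ℤ) ≠ ![0, -1] := by
    intro h
    have := congrFun h 1
    simp at this
  rw [tsum_eq_sum (s := {![0, 1], ![0, -1]})]
  · rw [Finset.sum_pair hne]
    simp only [Matrix.cons_val_zero, Matrix.cons_val_one, if_true,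
      eisWeightG_zero_one χ hinf]
    have h1 : ((1 : ℤ) : ℂ) ^ (-k) = 1 := by simp
    have h2 : ((-1 : ℤ) : ℂ) ^ (-k) = 1 := by
      push_cast
      exact hk2.neg.neg_one_zpow
    rw [h1, h2, eisLimG]
    ring
  · intro v hv
    simp only [Finset.mem_insert, Finset.mem_singleton, not_or] at hv
    split_ifs with h0
    · rw [eisWeightG_eq_zero_of χ h0 hv.1 hv.2, zero_mul]
    · rfl

theorem eisG_tendsto (hk : 3 ≤ k) (hk2 : Even k) (χ : ↥G →* ℂˣ)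
    (hχ : ∀ γ, ‖((χ γ : ℂˣ) : ℂ)‖ = 1)
    (hinf : ∀ γ : ↥G, (γ : SL(2, ℤ)) 1 0 = 0 → χ γ = 1) :
    Tendsto (eisG G k χ) atImInfty (𝓝 (eisLimG G χ)) := by
  have h := wEis_tendsto hk (norm_eisWeightG_le χ hχ)
  rw [eisG_limit_eq hk2 χ hinf] at h
  exact h

/-- The series does not vanish identically. -/
theorem eisG_ne_zero (hk : 3 ≤ k) (hk2 : Even k) (χ : ↥G →* ℂˣ)
    (hχ : ∀ γ, ‖((χ γ : ℂˣ) : ℂ)‖ = 1)
    (hinf : ∀ γ : ↥G, (γ : SL(2, ℤ)) 1 0 = 0 → χ γ = 1) :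
    eisG G k χ ≠ 0 := by
  intro h0
  have h := eisG_tendsto hk hk2 χ hχ hinf
  rw [h0] at h
  have h' : Tendsto (0 : ℍ → ℂ) atImInfty (𝓝 0) := tendsto_const_nhds
  exact eisLimG_ne_zero χ hinf (tendsto_nhds_unique h h')

/-- **Eisenstein series with character on a subgroup `G ≤ SL(2,ℤ)`**, normalised: limit `1`
at `i∞`. -/
theorem exists_eisenstein_characterG (G : Subgroup SL(2, ℤ)) (χ : ↥G →* ℂˣ)
    (hχ1 : ∀ γ, ‖(χ γ : ℂ)‖ = 1)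
    (hχinf : ∀ γ : ↥G, (γ : SL(2, ℤ)) 1 0 = 0 → χ γ = 1)
    (k : ℤ) (hk : 3 ≤ k) (hk2 : Even k) :
    ∃ E : ℍ → ℂ, MDiff E ∧
      (∀ γ : ↥G, E ∣[k] (γ : SL(2, ℤ)) = (χ γ : ℂ) • E) ∧
      Tendsto E atImInfty (𝓝 1) ∧
      (∀ g : SL(2, ℤ), IsBoundedAtImInfty (E ∣[k] g)) := by
  have hc := eisLimG_ne_zero χ hχinf
  refine ⟨(eisLimG G χ)⁻¹ • eisG G k χ, ?_, ?_, ?_, ?_⟩
  · exact (eisG_mdifferentiable hk χ hχ1).const_smul _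
  · intro γ
    rw [SL_smul_slash, eisG_slash χ hχinf, smul_comm]
  · have h := (eisG_tendsto hk hk2 χ hχ1 hχinf).const_smul (eisLimG G χ)⁻¹
    rw [smul_eq_mul, inv_mul_cancel₀ hc] at h
    exact h
  · intro g
    rw [SL_smul_slash]
    exact (eisG_isBoundedAtImInfty_slash hk χ hχ1 g).const_smul_left _

end Fermat.Agent.S48WAEis

namespace Fermat.Agent.S48WA

open UpperHalfPlane Filter Topology CongruenceSubgroup ModularForm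
open scoped MatrixGroups Manifold ModularForm

/-- **EIS**, normalised form: the Eisenstein series with character on `Γ₁(M)`, limit `1`. -/
theorem exists_eisenstein_character1_tendsto {M : ℕ} [NeZero M] (χ : ↥(Gamma1 M) →* ℂˣ)
    (hχ1 : ∀ γ, ‖(χ γ : ℂ)‖ = 1)
    (hχinf : ∀ γ : ↥(Gamma1 M), (γ : SL(2, ℤ)) 1 0 = 0 → χ γ = 1)
    (k : ℤ) (hk : 3 ≤ k) (hk2 : Even k) :
    ∃ E : ℍ → ℂ, MDiff E ∧
      (∀ γ : ↥(Gamma1 M), E ∣[k] (γ : SL(2, ℤ)) = (χ γ : ℂ) • E) ∧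
      Tendsto E atImInfty (𝓝 1) ∧
      (∀ g : SL(2, ℤ), IsBoundedAtImInfty (E ∣[k] g)) :=
  Fermat.Agent.S48WAEis.exists_eisenstein_characterG (Gamma1 M) χ hχ1 hχinf k hk hk2

/-- **EIS**, in the shape requested by helper43. -/
theorem exists_eisenstein_character1 {M : ℕ} [NeZero M] (χ : ↥(Gamma1 M) →* ℂˣ)
    (hχ1 : ∀ γ, ‖(χ γ : ℂ)‖ = 1)
    (hχinf : ∀ γ : ↥(Gamma1 M), (γ : SL(2, ℤ)) 1 0 = 0 → χ γ = 1)
    (k : ℤ) (hk : 3 ≤ k) (hk2 : Even k) :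
    ∃ E : ℍ → ℂ, MDiff E ∧
      (∀ γ : ↥(Gamma1 M), E ∣[k] (γ : SL(2, ℤ)) = (χ γ : ℂ) • E) ∧ E ≠ 0 ∧
      ∀ g : SL(2, ℤ), IsBoundedAtImInfty (E ∣[k] g) := by
  obtain ⟨E, h1, h2, h3, h4⟩ := exists_eisenstein_character1_tendsto χ hχ1 hχinf k hk hk2
  refine ⟨E, h1, h2, ?_, h4⟩
  intro h0
  rw [h0] at h3
  have h' : Tendsto (0 : ℍ → ℂ) atImInfty (𝓝 0) := tendsto_const_nhds
  exact one_ne_zero (tendsto_nhds_unique h3 h').symm.symm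

end Fermat.Agent.S48WA
end
end MergeWrap_S48_W_A_Eis
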